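import Fermat.Agent.CFT.Kummer.Local
import Fermat.Agent.CFT.NonResidue
import Fermat.Agent.CFT.SUnitsModP

/-!
# Auxiliary places for the second inequality

Given an `S`-unit `a` which is not a `p`-th power, there is a set `T` of `#S + r₂ - 1` places
outside `S` at which `a` is a local `p`-th power and the `S`-units surject onto
`∏_{v ∈ T} U_v / U_v ^ p`.
-/

namespace Fermat.Agent.CFT.Kummer

open NumberField IsDedekindDomain

variable {K : Type} [Field K] [NumberField K] {p : ℕ} [hp : Fact p.Prime]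

variable (K p) in
/-- The `S`-units which are local `p`-th powers on `T`. -/
noncomputable def auxGroup (S T : Finset (HeightOneSpectrum (𝓞 K))) : Subgroup Kˣ :=
  (↑S : Set (HeightOneSpectrum (𝓞 K))).unit K ⊓
    ⨅ v ∈ T, (localPowers K p v).comap (localEmb v)

omit hp in
theorem mem_auxGroup {S T : Finset (HeightOneSpectrum (𝓞 K))} {x : Kˣ} :
    x ∈ auxGroup K p S T ↔ x ∈ (↑S : Set (HeightOneSpectrum (𝓞 K))).unit K ∧
      ∀ v ∈ T, localEmb v x ∈ localPowers K p v := by
  simp [auxGroup, Subgroup.mem_iInf]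

omit hp in
theorem auxGroup_empty (S : Finset (HeightOneSpectrum (𝓞 K))) :
    auxGroup K p S ∅ = (↑S : Set (HeightOneSpectrum (𝓞 K))).unit K := by
  ext x; simp [mem_auxGroup]

omit hp in
theorem auxGroup_insert [DecidableEq (HeightOneSpectrum (𝓞 K))]
    (S T : Finset (HeightOneSpectrum (𝓞 K))) (w : HeightOneSpectrum (𝓞 K)) :
    auxGroup K p S (insert w T) =
      (localPowers K p w).comap (localEmb w) ⊓ auxGroup K p S T := by
  ext x; simp [mem_auxGroup]; tauto

theorem localEmb_coe (v : HeightOneSpectrum (𝓞 K)) (x : Kˣ) :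
    ((localEmb v x : (v.adicCompletion K)ˣ) : v.adicCompletion K) = ((x : K) : v.adicCompletion K) :=
  rfl

theorem localEmb_mem_units {v : HeightOneSpectrum (𝓞 K)} {x : Kˣ}
    (h : v.valuation K (x : K) = 1) : localEmb v x ∈ localUnits K v := by
  rw [mem_localUnits, localEmb_coe, HeightOneSpectrum.valuedAdicCompletion_eq_valuation', h]

/-- An integer prime to `v` is a local `p`-th power iff it is one modulo `v`. -/
theorem localEmb_mem_powers_int {ζ : K} (hζ : IsPrimitiveRoot ζ p) (v : HeightOneSpectrum (𝓞 K))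
    (hvp : (p : 𝓞 K) ∉ v.asIdeal) {x : 𝓞 K} (hx : x ∉ v.asIdeal) (u : Kˣ)
    (hu : (u : K) = algebraMap (𝓞 K) K x) :
    localEmb v u ∈ localPowers K p v ↔ ∃ r : 𝓞 K, r ^ p - x ∈ v.asIdeal := by
  have h1 : v.valuation K (algebraMap (𝓞 K) K x) = 1 :=
    (v.valuation_eq_one_iff_notMem).2 hx
  have hunit : IsUnit (algebraMap (𝓞 K) (v.adicCompletionIntegers K) x) := by
    rw [HeightOneSpectrum.adicCompletionIntegers.isUnit_iff_valued_eq_one,
      HeightOneSpectrum.algebraMap_adicCompletionIntegers_apply,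
      HeightOneSpectrum.valuedAdicCompletion_eq_valuation', h1]
  have heq : ((klUnitsHom v hunit.unit : localUnits K v) : (v.adicCompletion K)ˣ) =
      localEmb v u := by
    apply Units.ext
    rw [klUnitsHom_coe, IsUnit.unit_spec, localEmb_coe, hu,
      HeightOneSpectrum.algebraMap_adicCompletionIntegers_apply]
  rw [← heq, kl_mem_powers_iff_red v hζ hvp, IsUnit.unit_spec]
  constructor
  · rintro ⟨w, hw⟩
    obtain ⟨r, rfl⟩ := klRed_surjective v w
    refine ⟨r, ?_⟩
    rw [← klRed_ker v, RingHom.mem_ker, map_sub, map_pow, hw, klRed, RingHom.comp_apply, sub_self]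
  · rintro ⟨r, hr⟩
    refine ⟨klRed v r, ?_⟩
    rw [← klRed_ker v, RingHom.mem_ker, map_sub, map_pow, sub_eq_zero] at hr
    exact hr

omit [NumberField K] hp in
/-- Kummer theory: if `b` is a `p`-th power in `K(α)`, `α ^ p = a`, then `b ∈ a ^ i Kˣ ^ p`. -/
theorem aux_kummer (hpr : p.Prime) {ζ : K} (hζ : IsPrimitiveRoot ζ p) {a b : K} (ha : a ≠ 0)
    {f : Polynomial K} (hfa : f = Polynomial.X ^ p - Polynomial.C a) (hirr : Irreducible f)
    (hb : b ≠ 0)
    {y : AdjoinRoot f}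
    (hy : y ^ p = algebraMap K _ b) :
    ∃ (i : ℕ) (z : K), b = a ^ i * z ^ p := by
  have := Fact.mk hirr
  set α : AdjoinRoot f := AdjoinRoot.root f
  have hf : f ≠ 0 := hirr.ne_zero
  have hαp : α ^ p = algebraMap K _ a := by
    have h := AdjoinRoot.eval₂_root f
    have h' : (Polynomial.X ^ p - Polynomial.C a).eval₂ (AdjoinRoot.of f) α = 0 := hfa ▸ h
    simpa [Polynomial.eval₂_sub, sub_eq_zero] using h'
  have hinj := (algebraMap K (AdjoinRoot f)).injective
  have hα0 : α ≠ 0 := fun h => ha (hinj (by rw [← hαp, h, zero_pow hpr.ne_zero, map_zero]))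
  have hy0 : y ≠ 0 := fun h => hb (hinj (by rw [← hy, h, zero_pow hpr.ne_zero, map_zero]))
  let σ : AdjoinRoot f →ₐ[K] AdjoinRoot f :=
    AdjoinRoot.liftAlgHom f (Algebra.ofId K _) (algebraMap K _ ζ * α) (by
      subst hfa
      simp [mul_pow, ← map_pow, hζ.pow_eq_one, hαp])
  have hσα : σ α = algebraMap K _ ζ * α := AdjoinRoot.liftAlgHom_root _ _ _ _
  have : NeZero p := ⟨hpr.ne_zero⟩
  obtain ⟨i, hi, hiy⟩ := (hζ.map_of_injective hinj).eq_pow_of_pow_eq_one (ξ := σ y / y)
    (by rw [div_pow, ← map_pow, hy, AlgHom.commutes, div_self]; rwa [map_ne_zero])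
  rw [eq_div_iff hy0] at hiy
  set z := y / α ^ i
  have hσz : σ z = z := by
    simp only [z]
    rw [map_div₀, map_pow, hσα, ← hiy, mul_pow,
      mul_div_mul_left _ _ (pow_ne_zero _ ((map_ne_zero _).2 (hζ.ne_zero hpr.ne_zero)))]
  obtain ⟨g, hgdeg, hg⟩ : ∃ g : Polynomial K, g.natDegree < p ∧ Polynomial.aeval α g = z := by
    obtain ⟨g, hg⟩ := AdjoinRoot.mk_surjective (g := f) z
    refine ⟨g %ₘ f, ?_, ?_⟩
    · have hm : f.Monic := hfa ▸ Polynomial.monic_X_pow_sub_C a hpr.ne_zero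
      have hd : f.natDegree = p := hfa ▸ Polynomial.natDegree_X_pow_sub_C
      rw [← hd]
      exact Polynomial.natDegree_modByMonic_lt _ hm (fun h => by
        have := hd; rw [h, Polynomial.natDegree_one] at this; exact hpr.ne_zero this.symm)
    · rw [Polynomial.aeval_modByMonic_eq_self_of_root
        (by rw [AdjoinRoot.aeval_eq, AdjoinRoot.mk_self]), AdjoinRoot.aeval_eq, hg]
  have hd2 : g = g.comp (Polynomial.C ζ * Polynomial.X) := by
    refine sub_eq_zero.1 ?_
    by_contra hne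
    have hzero : Polynomial.aeval α (g - g.comp (Polynomial.C ζ * Polynomial.X)) = 0 := by
      rw [map_sub, Polynomial.aeval_comp, map_mul, Polynomial.aeval_C, Polynomial.aeval_X, ← hσα,
        Polynomial.aeval_algHom_apply, hg, hσz, sub_self]
    rw [AdjoinRoot.aeval_eq, AdjoinRoot.mk_eq_zero] at hzero
    have h1 := Polynomial.natDegree_le_of_dvd hzero hne
    rw [show f.natDegree = p from hfa ▸ Polynomial.natDegree_X_pow_sub_C] at h1
    have h2 : (g.comp (Polynomial.C ζ * Polynomial.X)).natDegree ≤ g.natDegree := by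
      refine Polynomial.natDegree_comp_le.trans ?_
      have := Polynomial.natDegree_C_mul_X_pow_le ζ 1
      rw [pow_one] at this
      calc g.natDegree * _ ≤ g.natDegree * 1 := Nat.mul_le_mul_left _ this
        _ = g.natDegree := mul_one _
    have h3 := (Polynomial.natDegree_sub_le g (g.comp (Polynomial.C ζ * Polynomial.X)))
    omega
  refine ⟨i, g.coeff 0, hinj ?_⟩
  have hg0 : g = Polynomial.C (g.coeff 0) := by
    ext n
    rcases Nat.eq_zero_or_pos n with rfl | hn
    · simp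
    rw [Polynomial.coeff_C, if_neg hn.ne']
    by_cases hnp : n < p
    · have h2 := congrArg (Polynomial.coeff · n) hd2
      rw [Polynomial.comp_C_mul_X_coeff, eq_comm, mul_right_eq_self₀] at h2
      rcases h2 with h2 | h2
      · exact absurd (hζ.pow_inj hnp hpr.pos (by rw [h2, pow_zero])) hn.ne'
      · exact h2
    · exact Polynomial.coeff_eq_zero_of_natDegree_lt (by omega)
  rw [hg0, Polynomial.aeval_C] at hg
  rw [map_mul, map_pow, map_pow, ← hαp, ← hy, hg, ← pow_mul, mul_comm p i, pow_mul, ← mul_pow,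
    mul_div_cancel₀ _ (pow_ne_zero _ hα0)]

/-- Every element is an integer times a `p`-th power. -/
theorem aux_integral (a : Kˣ) :
    ∃ (a' : 𝓞 K) (e : Kˣ), a' ≠ 0 ∧ algebraMap (𝓞 K) K a' = (a : K) * (e : K) ^ p := by
  obtain ⟨⟨n, d⟩, hnd⟩ := IsLocalization.surj (nonZeroDivisors (𝓞 K)) (a : K)
  have hd : algebraMap (𝓞 K) K d ≠ 0 :=
    (map_ne_zero_iff _ (FaithfulSMul.algebraMap_injective _ _)).2 (nonZeroDivisors.ne_zero d.2)
  refine ⟨n * (d : 𝓞 K) ^ (p - 1), Units.mk0 _ hd, ?_, ?_⟩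
  · refine mul_ne_zero ?_ (pow_ne_zero _ (nonZeroDivisors.ne_zero d.2))
    rintro rfl
    rw [map_zero] at hnd
    exact mul_ne_zero a.ne_zero hd hnd
  · rw [map_mul, map_pow, ← hnd, Units.val_mk0, mul_assoc, ← pow_succ']
    rw [Nat.sub_add_cancel hp.out.pos]

/-- The auxiliary prime of the induction step. -/
theorem aux_prime {ζ : K} (hζ : IsPrimitiveRoot ζ p) {a b : Kˣ}
    (ha : ∀ y : Kˣ, y ^ p ≠ a) (hb : ∀ (i : ℕ) (y : Kˣ), b ≠ a ^ i * y ^ p)
    (F : Finset (HeightOneSpectrum (𝓞 K))) :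
    ∃ w, w ∉ F ∧ (p : 𝓞 K) ∉ w.asIdeal ∧ localEmb w a ∈ localPowers K p w ∧
      localEmb w b ∉ localPowers K p w := by
  classical
  obtain ⟨a', e, ha'0, ha'⟩ := aux_integral (p := p) a
  obtain ⟨b', g, hb'0, hb'⟩ := aux_integral (p := p) b
  set au : Kˣ := a * e ^ p
  have hau : (au : K) = algebraMap (𝓞 K) K a' := by simp [au, ha']
  set bu : Kˣ := b * g ^ p
  have hbu : (bu : K) = algebraMap (𝓞 K) K b' := by simp [bu, hb']
  have hnp : ∀ y : K, y ^ p ≠ algebraMap (𝓞 K) K a' := by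
    intro y hy
    have hy0 : y ≠ 0 := fun h => au.ne_zero (by rw [hau, ← hy, h, zero_pow hp.out.ne_zero])
    refine ha (Units.mk0 y hy0 * e⁻¹) ?_
    rw [mul_pow, inv_pow, mul_inv_eq_iff_eq_mul]
    show Units.mk0 y hy0 ^ p = au
    exact Units.ext (by rw [Units.val_pow_eq_pow_val, Units.val_mk0, hy, hau])
  have hirr := X_pow_sub_C_irreducible_of_prime hp.out hnp
  have := Fact.mk hirr
  let L := AdjoinRoot (Polynomial.X ^ p - Polynomial.C (algebraMap (𝓞 K) K a'))
  have : FiniteDimensional K L := (AdjoinRoot.powerBasis hirr.ne_zero).finite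
  have : NumberField L := NumberField.of_module_finite K L
  have hbL : ∀ y : L, y ^ p ≠ ((algebraMap (𝓞 K) (𝓞 L) b' : 𝓞 L) : L) := by
    intro y hy
    have hy' : y ^ p = algebraMap K L (algebraMap (𝓞 K) K b') := by
      rw [hy]
      show algebraMap (𝓞 L) L _ = _
      rw [← IsScalarTower.algebraMap_apply, ← IsScalarTower.algebraMap_apply]
    obtain ⟨i, z, hz⟩ := aux_kummer hp.out hζ (by rw [← hau]; exact au.ne_zero) rfl hirr
      (by rw [← hbu]; exact bu.ne_zero) hy'
    have hz0 : z ≠ 0 := fun h => bu.ne_zero (by rw [hbu, hz, h, zero_pow hp.out.ne_zero, mul_zero])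
    refine hb i (e ^ i * Units.mk0 z hz0 * g⁻¹) ?_
    have h1 : bu = au ^ i * (Units.mk0 z hz0) ^ p := Units.ext (by simp [hau, hbu, hz])
    simp only [bu, au] at h1
    rw [← mul_inv_eq_iff_eq_mul.2 (rfl : b * g ^ p = b * g ^ p)]
    rw [h1, mul_pow, mul_pow, mul_pow, ← pow_mul, ← pow_mul, inv_pow, mul_comm i p]
    simp only [mul_assoc]
  have hζL : IsPrimitiveRoot (algebraMap K L ζ) p :=
    hζ.map_of_injective (algebraMap K L).injective
  obtain ⟨ℓ, hℓ, hℓE, φ, hφb, hφnp⟩ := nres_exists hζL hbL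
    (F.image (fun v => Ideal.absNorm v.asIdeal) ∪
      (p * Ideal.absNorm (Ideal.span {a'})).primeFactors)
  have := Fact.mk hℓ
  let ψ : 𝓞 K →+* ZMod ℓ := φ.comp (algebraMap (𝓞 K) (𝓞 L))
  have hker : RingHom.ker ψ ≠ ⊥ := by
    intro h
    have h1 := nres_ker_norm K ψ
    rw [h, Ideal.absNorm_bot] at h1
    exact hℓ.ne_zero h1.symm
  let w : HeightOneSpectrum (𝓞 K) :=
    ⟨RingHom.ker ψ, RingHom.ker_isPrime ψ, hker⟩
  rw [Finset.mem_union, not_or, Nat.mem_primeFactors] at hℓE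
  obtain ⟨hℓF, hℓN⟩ := hℓE
  have hNa : Ideal.absNorm (Ideal.span {a'}) ≠ 0 := by
    rwa [Ne, Ideal.absNorm_eq_zero_iff, Ideal.span_singleton_eq_bot]
  have hdvd : ¬ ℓ ∣ p * Ideal.absNorm (Ideal.span {a'}) :=
    fun h => hℓN ⟨hℓ, h, mul_ne_zero hp.out.ne_zero hNa⟩
  have hwp : (p : 𝓞 K) ∉ w.asIdeal := by
    intro h
    have h' : ψ (p : 𝓞 K) = 0 := h
    rw [map_natCast, ZMod.natCast_eq_zero_iff] at h'
    exact hdvd (Dvd.dvd.mul_right h' _)
  have hψa : ψ a' ≠ 0 := by
    intro h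
    obtain ⟨c, hc⟩ := Ideal.mem_span_singleton.1 (Ideal.absNorm_mem (Ideal.span {a'}))
    have h1 := congrArg ψ hc
    rw [map_natCast, map_mul, h, zero_mul, ZMod.natCast_eq_zero_iff] at h1
    exact hdvd (Dvd.dvd.mul_left h1 _)
  have hmul : ∀ (x t : Kˣ), localEmb w (x * t ^ p) ∈ localPowers K p w ↔
      localEmb w x ∈ localPowers K p w := by
    intro x t
    rw [map_mul]
    exact Subgroup.mul_mem_cancel_right _ ⟨localEmb w t, by simp⟩
  refine ⟨w, fun h => hℓF (Finset.mem_image.2 ⟨w, h, nres_ker_norm K ψ⟩), hwp, ?_, ?_⟩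
  · refine (hmul a e).1 ((localEmb_mem_powers_int hζ w hwp (x := a') hψa au hau).2 ?_)
    have hαint : IsIntegral ℤ
        (AdjoinRoot.root (Polynomial.X ^ p - Polynomial.C (algebraMap (𝓞 K) K a')) : L) := by
      refine IsIntegral.of_pow hp.out.pos ?_
      rw [root_X_pow_sub_C_pow p (algebraMap (𝓞 K) K a')]
      exact (RingOfIntegers.isIntegral_coe a').algebraMap
    set αi : 𝓞 L := ⟨_, hαint⟩
    obtain ⟨r, hr⟩ := ZMod.ringHom_surjective ψ (φ αi)
    refine ⟨r, ?_⟩
    show ψ (r ^ p - a') = 0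
    rw [map_sub, map_pow, hr, ← map_pow, sub_eq_zero]
    show φ (αi ^ p) = φ (algebraMap (𝓞 K) (𝓞 L) a')
    congr 1
    apply RingOfIntegers.ext
    show algebraMap (𝓞 L) L _ = algebraMap (𝓞 L) L _
    rw [map_pow, ← IsScalarTower.algebraMap_apply, IsScalarTower.algebraMap_apply (𝓞 K) K L]
    exact root_X_pow_sub_C_pow p (algebraMap (𝓞 K) K a')
  · intro h
    obtain ⟨r, hr⟩ := (localEmb_mem_powers_int hζ w hwp (x := b') hφb bu hbu).1 ((hmul b g).2 h)
    apply hφnp (ψ r)
    have h1 : ψ (r ^ p - b') = 0 := hr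
    rw [map_sub, map_pow, sub_eq_zero] at h1
    exact h1

theorem aux_relIndex_dvd {ζ : K} (hζ : IsPrimitiveRoot ζ p)
    {S T : Finset (HeightOneSpectrum (𝓞 K))} {w : HeightOneSpectrum (𝓞 K)} (hwS : w ∉ S)
    (hwp : (p : 𝓞 K) ∉ w.asIdeal) :
    ((localPowers K p w).comap (localEmb w)).relIndex (auxGroup K p S T) ∣ p := by
  rw [Subgroup.relIndex_comap]
  have hle : (auxGroup K p S T).map (localEmb w) ≤ localUnits K w := by
    rintro _ ⟨x, hx, rfl⟩
    exact localEmb_mem_units ((mem_auxGroup.1 hx).1 w hwS)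
  have h := kl_relIndex_units w hζ
  rw [kl_exp_eq_zero w hwp, pow_zero, mul_one] at h
  calc (localPowers K p w).relIndex ((auxGroup K p S T).map (localEmb w))
      = ((localPowers K p w).subgroupOf (localUnits K w)).relIndex
          (((auxGroup K p S T).map (localEmb w)).subgroupOf (localUnits K w)) :=
        (Subgroup.relIndex_subgroupOf hle).symm
    _ ∣ ((localPowers K p w).subgroupOf (localUnits K w)).index :=
        Subgroup.relIndex_dvd_index_of_normal _ _
    _ = p := h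

/-- The auxiliary set of places. -/
theorem aux_exists (hp2 : p ≠ 2) {ζ : K} (hζ : IsPrimitiveRoot ζ p)
    {S : Finset (HeightOneSpectrum (𝓞 K))}
    {a : Kˣ} (haS : a ∈ (↑S : Set (HeightOneSpectrum (𝓞 K))).unit K)
    (ha : ∀ y : Kˣ, y ^ p ≠ a) :
    ∃ T : Finset (HeightOneSpectrum (𝓞 K)), Disjoint S T ∧
      (∀ v ∈ T, (p : 𝓞 K) ∉ v.asIdeal ∧ localEmb v a ∈ localPowers K p v) ∧
      T.card + 1 = S.card + InfinitePlace.nrComplexPlaces K ∧
      (auxGroup K p S T).relIndex ((↑S : Set (HeightOneSpectrum (𝓞 K))).unit K) =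
        p ^ T.card := by
  classical
  set U := (↑S : Set (HeightOneSpectrum (𝓞 K))).unit K with hU
  set N := S.card + InfinitePlace.nrComplexPlaces K with hN
  set Up : Subgroup Kˣ := (powMonoidHom p : ↥U →* ↥U).range.map U.subtype
  set W : Subgroup Kˣ := Subgroup.zpowers a ⊔ Up
  have hUp : Up.relIndex U = p ^ N := by
    rw [hN, ← supm_index S hp2 hζ]
    simp only [Up, Subgroup.relIndex, Subgroup.subgroupOf]
    rw [Subgroup.comap_map_eq_self_of_injective U.subtype_injective]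
  have hUpU : Up ≤ U := Subgroup.map_subtype_le _
  have hWU : W ≤ U := sup_le (Subgroup.zpowers_le.2 haS) hUpU
  have haUp : a ∉ Up := by
    rintro ⟨_, ⟨y, rfl⟩, hy⟩
    exact ha (y : Kˣ) (by simpa using hy)
  have hWp : Up.relIndex W = p := by
    have hdvd : Up.relIndex W ∣ p := by
      rw [Subgroup.relIndex_sup_right]
      rw [← QuotientGroup.ker_mk' Up, Subgroup.relIndex_ker, MonoidHom.map_zpowers,
        Nat.card_zpowers]
      refine orderOf_dvd_of_pow_eq_one ?_
      rw [← map_pow]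
      exact (QuotientGroup.eq_one_iff _).2 ⟨⟨a, haS⟩ ^ p, ⟨⟨a, haS⟩, rfl⟩, rfl⟩
    refine (hp.out.eq_one_or_self_of_dvd _ hdvd).resolve_left fun h => haUp ?_
    exact Subgroup.relIndex_eq_one.1 h (Subgroup.mem_sup_left (Subgroup.mem_zpowers a))
  have hWN : W.relIndex U * p = p ^ N := by
    rw [mul_comm, ← hWp, Subgroup.relIndex_mul_relIndex _ _ _ le_sup_right hWU, hUp, hWp]
  have key : ∀ n, n + 1 ≤ N → ∃ T : Finset (HeightOneSpectrum (𝓞 K)), Disjoint S T ∧
      (∀ v ∈ T, (p : 𝓞 K) ∉ v.asIdeal ∧ localEmb v a ∈ localPowers K p v) ∧ T.card = n ∧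
      (auxGroup K p S T).relIndex U = p ^ n := by
    intro n
    induction n with
    | zero => exact fun _ => ⟨∅, by simp, by simp, rfl, by simp [auxGroup_empty, hU]⟩
    | succ n ih =>
      intro hn
      obtain ⟨T, hST, hTa, hTn, hidx⟩ := ih (by omega)
      have hWA : W ≤ auxGroup K p S T := by
        refine sup_le (Subgroup.zpowers_le.2 (mem_auxGroup.2 ⟨haS, fun v hv => (hTa v hv).2⟩)) ?_
        rintro _ ⟨_, ⟨y, rfl⟩, rfl⟩
        refine mem_auxGroup.2 ⟨hUpU ⟨_, ⟨y, rfl⟩, rfl⟩, fun v _ => ⟨localEmb v (y : Kˣ), ?_⟩⟩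
        simp
      obtain ⟨b, hbA, hbW⟩ : ∃ b ∈ auxGroup K p S T, b ∉ W := by
        by_contra! h
        rw [le_antisymm h hWA] at hidx
        rw [hidx, ← pow_succ] at hWN
        have := Nat.pow_right_injective hp.out.two_le hWN
        omega
      have hb : ∀ (i : ℕ) (y : Kˣ), b ≠ a ^ i * y ^ p := by
        intro i y h
        have hy : y ∈ U := by
          intro v hv
          have h1 : v.valuation K ((b : Kˣ) : K) = 1 := (mem_auxGroup.1 hbA).1 v hv
          rw [h, Units.val_mul, Units.val_pow_eq_pow_val, Units.val_pow_eq_pow_val, map_mul,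
            map_pow, map_pow, haS v hv, one_pow, one_mul] at h1
          exact (pow_eq_one_iff_of_nonneg zero_le hp.out.ne_zero).1 h1
        refine hbW (h ▸ Subgroup.mul_mem_sup (Subgroup.npow_mem_zpowers a i) ?_)
        exact ⟨⟨y, hy⟩ ^ p, ⟨⟨y, hy⟩, rfl⟩, rfl⟩
      obtain ⟨w, hwF, hwp, hwa, hwb⟩ := aux_prime hζ ha hb (S ∪ T)
      rw [Finset.mem_union, not_or] at hwF
      refine ⟨insert w T, Finset.disjoint_insert_right.2 ⟨hwF.1, hST⟩,
        fun v hv => (Finset.mem_insert.1 hv).elim (fun h => h ▸ ⟨hwp, hwa⟩) (hTa v),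
        by rw [Finset.card_insert_of_notMem hwF.2, hTn], ?_⟩
      have hstep : ((localPowers K p w).comap (localEmb w)).relIndex (auxGroup K p S T) = p :=
        (hp.out.eq_one_or_self_of_dvd _ (aux_relIndex_dvd hζ hwF.1 hwp)).resolve_left
          fun h => hwb (Subgroup.relIndex_eq_one.1 h hbA)
      rw [auxGroup_insert, ← Subgroup.relIndex_mul_relIndex _ _ _ inf_le_right
        (fun x hx => (mem_auxGroup.1 hx).1), Subgroup.inf_relIndex_right, hstep, hidx, pow_succ']
  have hN1 : 1 ≤ N := by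
    rcases Nat.eq_zero_or_pos N with h0 | h0
    · rw [h0, pow_zero] at hWN
      exact absurd (Nat.eq_one_of_mul_eq_one_left hWN) hp.out.one_lt.ne'
    · exact h0
  obtain ⟨T, h1, h2, h3, h4⟩ := key (N - 1) (by omega)
  exact ⟨T, h1, h2, by omega, by rw [h4, h3]⟩

end Fermat.Agent.CFT.Kummer
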