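import Mathlib.RingTheory.DedekindDomain.FiniteAdeleRing
import Mathlib.NumberTheory.NumberField.Completion.FinitePlace
import Mathlib.GroupTheory.Index
import Mathlib.RingTheory.DedekindDomain.SelmerGroup

/-!
# Finite ideles and the local norm bounds of a Kummer extension

For `b ∈ Kˣ` (`K ∋ ζ_p`, `p` odd), `kummerIdeles p b` consists of ideles which are visibly norms
from `K(b ^ (1/p))`: everything where `b` is a local `p`-th power, units times `p`-th powers
where the extension is unramified, `p`-th powers elsewhere.
-/

namespace Fermat.Agent.CFT.Kummer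

open NumberField IsDedekindDomain

variable (K : Type*) [Field K] [NumberField K]

/-- The finite ideles of a number field. -/
abbrev Idele : Type _ := (FiniteAdeleRing (𝓞 K) K)ˣ

variable {K}

/-- Evaluation of an adele at a place, as a monoid homomorphism. -/
noncomputable def adeleEval (v : HeightOneSpectrum (𝓞 K)) :
    FiniteAdeleRing (𝓞 K) K →* v.adicCompletion K where
  toFun a := a v
  map_one' := rfl
  map_mul' _ _ := rfl

/-- The component of an idele at a place. -/
noncomputable def ideleComp (v : HeightOneSpectrum (𝓞 K)) :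
    Idele K →* (v.adicCompletion K)ˣ :=
  Units.map (adeleEval v)

variable (K) in
/-- The diagonal embedding. -/
noncomputable def ideleDiag : Kˣ →* Idele K :=
  FiniteAdeleRing.unitEmbedding (𝓞 K) K

/-- The embedding of `Kˣ` in a completion. -/
noncomputable def localEmb (v : HeightOneSpectrum (𝓞 K)) : Kˣ →* (v.adicCompletion K)ˣ :=
  (ideleComp v).comp (ideleDiag K)

variable (K) in
/-- The units of a completion. -/
noncomputable def localUnits (v : HeightOneSpectrum (𝓞 K)) :
    Subgroup (v.adicCompletion K)ˣ :=
  (Units.map (Valued.v : Valuation (v.adicCompletion K) _).toMonoidWithZeroHom.toMonoidHom).ker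

theorem mem_localUnits {v : HeightOneSpectrum (𝓞 K)} {x : (v.adicCompletion K)ˣ} :
    x ∈ localUnits K v ↔ Valued.v (x : v.adicCompletion K) = 1 := by
  simp [localUnits, MonoidHom.mem_ker, Units.ext_iff]

variable (K) in
/-- The `p`-th powers of a completion. -/
noncomputable def localPowers (p : ℕ) (v : HeightOneSpectrum (𝓞 K)) :
    Subgroup (v.adicCompletion K)ˣ :=
  (powMonoidHom p).range

variable (p : ℕ)

open Classical in
/-- Elements of `K_v` that are visibly local norms from `K_v(b ^ (1/p))`. -/
noncomputable def kummerLocal (b : Kˣ) (v : HeightOneSpectrum (𝓞 K)) :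
    Subgroup (v.adicCompletion K)ˣ :=
  if localEmb v b ∈ localPowers K p v then ⊤
  else if (p : 𝓞 K) ∉ v.asIdeal ∧ localEmb v b ∈ localUnits K v ⊔ localPowers K p v then
    localUnits K v ⊔ localPowers K p v
  else localPowers K p v

/-- The ideles that are visibly norms from `K(b ^ (1/p))`. -/
noncomputable def kummerIdeles (b : Kˣ) : Subgroup (Idele K) :=
  ⨅ v : HeightOneSpectrum (𝓞 K), (kummerLocal p b v).comap (ideleComp v)

variable (K) in
/-- The first inequality for the Kummer extensions of `K`, in the form used by the second. -/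
def KummerFirstInequality : Prop :=
  ∀ b : Kˣ, (∀ y : Kˣ, y ^ p ≠ b) → (ideleDiag K).range ⊔ kummerIdeles p b ≠ ⊤

variable (K) in
/-- Ideles which are `p`-th powers on `S`, arbitrary on `T` and units elsewhere. -/
noncomputable def rayIdeles (S T : Finset (HeightOneSpectrum (𝓞 K))) : Subgroup (Idele K) :=
  (⨅ v ∈ S, (localPowers K p v).comap (ideleComp v)) ⊓
    ⨅ (v : HeightOneSpectrum (𝓞 K)) (_ : v ∉ S) (_ : v ∉ T),
      (localUnits K v).comap (ideleComp v)

variable (K) in
/-- `S` generates the class group. -/
def GeneratesClassGroup (S : Finset (HeightOneSpectrum (𝓞 K))) : Prop :=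
  ∀ v : HeightOneSpectrum (𝓞 K), v ∉ S → ∃ x : Kˣ,
    Multiplicative.toAdd (v.valuationOfNeZero x) = -1 ∧
      ∀ w, w ∉ S → w ≠ v → w.valuation K (x : K) = 1

end Fermat.Agent.CFT.Kummer
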