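import Fermat.Agent.CFT.Kummer.Defs
import Fermat.Agent.CFT.UnitsPowIndex
import Mathlib.NumberTheory.NumberField.Cyclotomic.Basic
import Mathlib.RingTheory.DedekindDomain.Factorization
import Mathlib.Analysis.SpecificLimits.Basic

/-!
# `p`-th powers in the completions of a number field containing `ζ_p`
-/

namespace Fermat.Agent.CFT.Kummer

open NumberField IsDedekindDomain IsLocalRing WithZero
open scoped WithZero

variable {K : Type*} [Field K] [NumberField K] (v : HeightOneSpectrum (𝓞 K))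

local notation "Kv" => v.adicCompletion K
local notation "Ov" => v.adicCompletionIntegers K

theorem kl_irreducible_uniformizer :
    ∃ π : Ov, Irreducible π ∧ Valued.v (π : Kv) = exp (-1 : ℤ) := by
  obtain ⟨π₀, hπ₀⟩ := v.valuation_exists_uniformizer K
  have hv : Valued.v (π₀ : Kv) = exp (-1 : ℤ) := by
    rw [HeightOneSpectrum.valuedAdicCompletion_eq_valuation', hπ₀]
  have hmem : (π₀ : Kv) ∈ v.adicCompletionIntegers K := by
    rw [HeightOneSpectrum.mem_adicCompletionIntegers, hv, ← exp_zero, exp_le_exp]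
    omega
  refine ⟨⟨(π₀ : Kv), hmem⟩, ?_, hv⟩
  rw [IsDiscreteValuationRing.irreducible_iff_uniformizer]
  have hO := HeightOneSpectrum.adicCompletionIntegers.integers K v
  ext x
  rw [Ideal.mem_span_singleton, hO.dvd_iff_le]
  change x ∈ maximalIdeal Ov ↔ Valued.v (x : Kv) ≤ Valued.v (π₀ : Kv)
  rw [hv, IsLocalRing.mem_maximalIdeal, mem_nonunits_iff,
    HeightOneSpectrum.adicCompletionIntegers.isUnit_iff_valued_eq_one]
  have hle : Valued.v (x : Kv) ≤ 1 := x.2
  constructor
  · intro h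
    rcases eq_or_ne (Valued.v (x : Kv)) 0 with h0 | h0
    · rw [h0]; exact zero_le
    · rw [← exp_log h0] at hle h ⊢
      rw [← exp_zero, exp_le_exp] at hle
      rw [exp_le_exp]
      rw [← exp_zero, exp_inj] at h
      omega
  · intro h h1
    rw [h1, ← exp_zero, exp_le_exp] at h
    omega

theorem kl_mem_pow_iff (n : ℕ) (x : Ov) :
    x ∈ maximalIdeal Ov ^ n ↔ Valued.v (x : Kv) ≤ exp (-(n : ℤ)) := by
  obtain ⟨π, hπ, hv⟩ := kl_irreducible_uniformizer v
  rw [upi_mem_pow_iff hπ, (HeightOneSpectrum.adicCompletionIntegers.integers K v).dvd_iff_le]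
  change Valued.v (x : Kv) ≤ Valued.v ((π ^ n : Ov) : Kv) ↔ _
  rw [SubmonoidClass.coe_pow, map_pow, hv, ← exp_nsmul]
  simp

theorem kl_mem_maximal_iff (x : Ov) :
    x ∈ maximalIdeal Ov ↔ Valued.v (x : Kv) < 1 := by
  rw [IsLocalRing.mem_maximalIdeal, mem_nonunits_iff,
    HeightOneSpectrum.adicCompletionIntegers.isUnit_iff_valued_eq_one]
  exact ⟨fun h => lt_of_le_of_ne x.2 h, fun h => h.ne⟩

theorem kl_isAdicComplete : IsAdicComplete (maximalIdeal Ov) Ov := by
  have : IsHausdorff (maximalIdeal Ov) Ov := inferInstance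
  refine { toIsHausdorff := this, prec' := fun f hf => ?_ }
  set b : NNReal := ((Ideal.absNorm v.asIdeal : ℕ) : NNReal)
  have hb : 1 < b := NumberField.HeightOneSpectrum.one_lt_absNorm_nnreal v
  have hb' : (1 : ℝ) < b := hb
  have hnorm : ∀ (n : ℕ) (y : Kv),
      Valued.v y ≤ exp (-(n : ℤ)) ↔ ‖y‖ ≤ ((b : ℝ)⁻¹) ^ n := by
    intro n y
    have h := FinitePlace.norm_def v y
    rw [h, ← NNReal.coe_inv, ← NNReal.coe_pow, NNReal.coe_le_coe]
    conv_lhs => rw [← (WithZeroMulInt.toNNReal_strictMono hb).le_iff_le]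
    rw [WithZeroMulInt.toNNReal_neg_apply (NumberField.HeightOneSpectrum.absNorm_ne_zero v)
      (exp_ne_zero (a := -(n : ℤ)))]
    rw [show Multiplicative.toAdd (unzero (exp_ne_zero (a := -(n : ℤ)))) = -(n : ℤ) from rfl,
      zpow_neg, zpow_natCast, inv_pow]
  have hd : ∀ m n, m ≤ n → ‖((f m : Ov) : Kv) - ((f n : Ov) : Kv)‖ ≤ ((b : ℝ)⁻¹) ^ m := by
    intro m n hmn
    rw [← hnorm, ← AddSubgroupClass.coe_sub, ← kl_mem_pow_iff]
    have := hf hmn
    rwa [SModEq.sub_mem, smul_eq_mul, Ideal.mul_top] at this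
  have hcs : CauchySeq fun n => ((f n : Ov) : Kv) :=
    cauchySeq_of_le_geometric ((b : ℝ)⁻¹) 1 (inv_lt_one_of_one_lt₀ hb') fun n => by
      rw [dist_eq_norm, one_mul]; exact hd n (n + 1) (Nat.le_succ n)
  obtain ⟨L, hL⟩ := cauchySeq_tendsto_of_complete hcs
  have hclose : ∀ m, ‖((f m : Ov) : Kv) - L‖ ≤ ((b : ℝ)⁻¹) ^ m := fun m =>
    le_of_tendsto ((hL.const_sub _).norm) (Filter.eventually_atTop.2 ⟨m, fun n hn => hd m n hn⟩)
  have hmem : L ∈ v.adicCompletionIntegers K := by
    have h0 := (hnorm 0 _).2 (hclose 0)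
    rw [Nat.cast_zero, neg_zero, exp_zero] at h0
    have : L = (f 0 : Kv) - ((f 0 : Kv) - L) := by ring
    rw [this]
    exact Subring.sub_mem _ (f 0).2 h0
  refine ⟨⟨L, hmem⟩, fun m => ?_⟩
  rw [SModEq.sub_mem, smul_eq_mul, Ideal.mul_top, kl_mem_pow_iff]
  exact (hnorm m _).2 (hclose m)

/-- The reduction map from the integers to the residue field of the completion. -/
noncomputable def klRed : 𝓞 K →+* ResidueField Ov :=
  (IsLocalRing.residue Ov).comp (algebraMap (𝓞 K) Ov)

theorem klRed_ker : RingHom.ker (klRed v) = v.asIdeal := by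
  ext r
  rw [RingHom.mem_ker, klRed, RingHom.comp_apply, IsLocalRing.residue_eq_zero_iff,
    kl_mem_maximal_iff, HeightOneSpectrum.algebraMap_adicCompletionIntegers_apply,
    HeightOneSpectrum.valuedAdicCompletion_eq_valuation',
    HeightOneSpectrum.valuation_lt_one_iff_mem]

theorem klRed_surjective : Function.Surjective (klRed v) := by
  intro z
  obtain ⟨x, rfl⟩ := IsLocalRing.residue_surjective z
  obtain ⟨k, hk⟩ := (HeightOneSpectrum.denseRange_algebraMap K v).exists_dist_lt (x : Kv)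
    (ε := 1) one_pos
  have hk1 : Valued.v ((x : Kv) - (k : Kv)) < 1 := by
    rw [dist_eq_norm] at hk
    exact Valued.toNormedField.norm_lt_one_iff.1 hk
  have hk2 : v.valuation K k ≤ 1 := by
    rw [← HeightOneSpectrum.valuedAdicCompletion_eq_valuation',
      show (k : Kv) = (x : Kv) - ((x : Kv) - (k : Kv)) by ring]
    exact (Valuation.map_sub _ _ _).trans (max_le x.2 hk1.le)
  obtain ⟨a, ha⟩ := v.exists_valuation_sub_lt_of_integer hk2 1
  refine ⟨a, ?_⟩
  rw [klRed, RingHom.comp_apply, ← sub_eq_zero, ← map_sub, IsLocalRing.residue_eq_zero_iff,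
    kl_mem_maximal_iff, AddSubgroupClass.coe_sub,
    HeightOneSpectrum.algebraMap_adicCompletionIntegers_apply]
  rw [show ((algebraMap (𝓞 K) K a : K) : Kv) - (x : Kv) =
      (((algebraMap (𝓞 K) K a : K) : Kv) - (k : Kv)) - ((x : Kv) - (k : Kv)) by ring]
  refine (Valuation.map_sub _ _ _).trans_lt (max_lt ?_ hk1)
  have h : ((algebraMap (𝓞 K) K a : K) : Kv) - (k : Kv) =
      ((algebraMap (𝓞 K) K a - k : K) : Kv) :=
    (map_sub (algebraMap K Kv) _ _).symm
  rw [h, HeightOneSpectrum.valuedAdicCompletion_eq_valuation']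
  simpa using ha

theorem kl_card_residueField : Nat.card (ResidueField Ov) = Ideal.absNorm v.asIdeal := by
  rw [← Nat.card_congr (RingHom.quotientKerEquivOfSurjective (klRed_surjective v)).toEquiv,
    klRed_ker, Ideal.absNorm_apply, Submodule.cardQuot_apply]

theorem kl_finite_residueField : Finite (ResidueField Ov) := by
  refine Nat.finite_of_card_ne_zero ?_
  rw [kl_card_residueField]
  have := NumberField.HeightOneSpectrum.one_lt_absNorm v
  omega

section Powers

variable {p : ℕ} [hp : Fact p.Prime] {ζ : K}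

/-- The exponent of `v` in `(p)`. -/
noncomputable def klExp (p : ℕ) : ℕ := multiplicity v.asIdeal (Ideal.span {(p : 𝓞 K)})

theorem kl_exists_root_data (hζ : IsPrimitiveRoot ζ p) :
    ∃ (π z : Ov) (c : ℕ), Irreducible π ∧ IsPrimitiveRoot z p ∧
      (∀ i < p, ∀ j < p, i ≠ j → Associated (π ^ c) (z ^ i - z ^ j)) ∧
      (p - 1) * c = klExp v p := by
  obtain ⟨π, hπ, hv⟩ := kl_irreducible_uniformizer v
  set z : Ov := algebraMap (𝓞 K) Ov hζ.toInteger
  have hinj : Function.Injective (algebraMap (𝓞 K) Ov) :=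
    FaithfulSMul.algebraMap_injective _ _
  have hz : IsPrimitiveRoot z p := hζ.toInteger_isPrimitiveRoot.map_of_injective hinj
  obtain ⟨c, hc⟩ := upi_exists_c hπ hz
  refine ⟨π, z, c, hπ, hz, hc, ?_⟩
  obtain ⟨u, hu⟩ := (upi_associated_natCast hz hc).symm
  have h1 : Valued.v (((p : ℕ) : Ov) : Kv) = exp (-((((p - 1) * c : ℕ)) : ℤ)) := by
    rw [← hu, MulMemClass.coe_mul, map_mul, SubmonoidClass.coe_pow, map_pow, hv, ← exp_nsmul,
      (HeightOneSpectrum.adicCompletionIntegers.isUnit_iff_valued_eq_one).1 u.isUnit, mul_one]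
    simp
  have hp0 : (p : 𝓞 K) ≠ 0 := Nat.cast_ne_zero.2 hp.out.ne_zero
  rw [show ((p : ℕ) : Ov) = algebraMap (𝓞 K) Ov (p : 𝓞 K) from (map_natCast _ _).symm,
    HeightOneSpectrum.algebraMap_adicCompletionIntegers_apply,
    HeightOneSpectrum.valuedAdicCompletion_eq_valuation',
    HeightOneSpectrum.valuation_of_algebraMap, v.intValuation_eq_exp_neg_multiplicity hp0,
    exp_inj, neg_inj, Nat.cast_inj] at h1
  exact h1.symm

omit hp in
theorem kl_exp_eq_zero (h : (p : 𝓞 K) ∉ v.asIdeal) : klExp v p = 0 :=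
  multiplicity_eq_zero.2 fun hd => h ((Ideal.dvd_span_singleton).1 hd)

/-- The units of the ring of integers, as units of `K_v`. -/
noncomputable def klUnitsHom : Ovˣ →* localUnits K v :=
  (Units.map ((v.adicCompletionIntegers K).subtype : Ov →* Kv)).codRestrict _ fun u =>
    mem_localUnits.2 (HeightOneSpectrum.adicCompletionIntegers.isUnit_iff_valued_eq_one.1 u.isUnit)

theorem klUnitsHom_coe (u : Ovˣ) :
    (((klUnitsHom v u : localUnits K v) : Kvˣ) : Kv) = ((u : Ov) : Kv) := rfl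

theorem klUnitsHom_bijective : Function.Bijective (klUnitsHom v) := by
  constructor
  · intro a b h
    apply Units.ext
    apply Subtype.ext
    rw [← klUnitsHom_coe v a, ← klUnitsHom_coe v b, h]
  · intro x
    have hx : Valued.v ((x : Kvˣ) : Kv) = 1 := mem_localUnits.1 x.2
    have hmem : ((x : Kvˣ) : Kv) ∈ v.adicCompletionIntegers K :=
      (HeightOneSpectrum.mem_adicCompletionIntegers _ _ _).2 hx.le
    have hu : IsUnit (⟨_, hmem⟩ : Ov) :=
      HeightOneSpectrum.adicCompletionIntegers.isUnit_iff_valued_eq_one.2 hx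
    refine ⟨hu.unit, ?_⟩
    apply Subtype.ext
    apply Units.ext
    rw [klUnitsHom_coe, IsUnit.unit_spec]

theorem kl_powers_subgroupOf :
    (localPowers K p v).subgroupOf (localUnits K v) =
      (powMonoidHom p : Ovˣ →* Ovˣ).range.map (klUnitsHom v) := by
  ext x
  rw [Subgroup.mem_subgroupOf]
  constructor
  · rintro ⟨y, hy⟩
    have hy1 : y ∈ localUnits K v := by
      rw [mem_localUnits]
      have h1 := mem_localUnits.1 x.2
      rw [← hy, powMonoidHom_apply, Units.val_pow_eq_pow_val, map_pow] at h1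
      exact (pow_eq_one_iff_of_nonneg zero_le hp.out.ne_zero).1 h1
    obtain ⟨w, hw⟩ := (klUnitsHom_bijective v).2 ⟨y, hy1⟩
    refine ⟨w ^ p, ⟨w, rfl⟩, ?_⟩
    rw [map_pow, hw]
    exact Subtype.ext hy
  · rintro ⟨_, ⟨y, rfl⟩, rfl⟩
    refine ⟨(klUnitsHom v y : Kvˣ), ?_⟩
    rw [powMonoidHom_apply, powMonoidHom_apply, map_pow, SubgroupClass.coe_pow]

/-- `[U_v : U_v ^ p] = p * N v ^ e`. -/
theorem kl_relIndex_units (hζ : IsPrimitiveRoot ζ p) :
    (localPowers K p v).relIndex (localUnits K v) =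
      p * Ideal.absNorm v.asIdeal ^ klExp v p := by
  obtain ⟨π, z, c, hπ, hz, hc, he⟩ := kl_exists_root_data v hζ
  have := kl_isAdicComplete v
  have := kl_finite_residueField v
  rw [Subgroup.relIndex, kl_powers_subgroupOf,
    Subgroup.index_map_of_bijective (f := klUnitsHom v) (klUnitsHom_bijective v),
    upi_index_units hπ hz hc, kl_card_residueField, he]

/-- The valuation modulo `p`. -/
noncomputable def klOrdMod (p : ℕ) : Kvˣ →* Multiplicative (ZMod p) where
  toFun x := Multiplicative.ofAdd ((log (Valued.v (x : Kv)) : ℤ) : ZMod p)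
  map_one' := by simp
  map_mul' x y := by
    rw [Units.val_mul, map_mul, log_mul ((Valuation.ne_zero_iff _).2 x.ne_zero)
      ((Valuation.ne_zero_iff _).2 y.ne_zero), Int.cast_add, ofAdd_add]

theorem kl_ker_ordMod : (klOrdMod v p).ker = localUnits K v ⊔ localPowers K p v := by
  have key : ∀ x : Kvˣ, klOrdMod v p x =
      Multiplicative.ofAdd ((log (Valued.v (x : Kv)) : ℤ) : ZMod p) := fun x => rfl
  apply le_antisymm
  · intro x hx
    rw [MonoidHom.mem_ker, key] at hx
    obtain ⟨n, hn⟩ := (ZMod.intCast_zmod_eq_zero_iff_dvd _ _).1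
      (Multiplicative.ofAdd.injective hx)
    obtain ⟨y, hy⟩ := HeightOneSpectrum.valuedAdicCompletion_surjective K v (exp n)
    have hy0 : y ≠ 0 := fun h => exp_ne_zero (a := n) (by rw [← hy, h, map_zero])
    have hxy : x * (Units.mk0 y hy0 ^ p)⁻¹ ∈ localUnits K v := by
      rw [mem_localUnits, Units.val_mul, Units.val_inv_eq_inv_val, Units.val_pow_eq_pow_val,
        Units.val_mk0, map_mul, map_inv₀, map_pow, hy, ← exp_nsmul,
        ← exp_log ((Valuation.ne_zero_iff (Valued.v : Valuation Kv ℤᵐ⁰)).2 x.ne_zero), ← exp_neg, ← exp_add, hn, ← exp_zero,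
        exp_inj]
      simp
    rw [show x = x * (Units.mk0 y hy0 ^ p)⁻¹ * (Units.mk0 y hy0 ^ p) by group]
    exact Subgroup.mul_mem_sup hxy ⟨Units.mk0 y hy0, rfl⟩
  · refine sup_le (fun x hx => ?_) ?_
    · rw [MonoidHom.mem_ker, key, mem_localUnits.1 hx, log_one]
      simp
    · rintro _ ⟨y, rfl⟩
      rw [MonoidHom.mem_ker, powMonoidHom_apply, map_pow, key, ← ofAdd_nsmul]
      simp

theorem kl_ordMod_surjective : Function.Surjective (klOrdMod v p) := by
  intro m
  obtain ⟨y, hy⟩ := HeightOneSpectrum.valuedAdicCompletion_surjective K v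
    (exp ((Multiplicative.toAdd m).cast : ℤ))
  have hy0 : y ≠ 0 := fun h => exp_ne_zero (by rw [← hy, h, map_zero])
  refine ⟨Units.mk0 y hy0, ?_⟩
  show Multiplicative.ofAdd ((log (Valued.v y) : ℤ) : ZMod p) = m
  rw [hy, log_exp, ZMod.intCast_zmod_cast]
  rfl

/-- `[K_v^* : K_v^* p] = p² * N v ^ e`. -/
theorem kl_index_powers (hζ : IsPrimitiveRoot ζ p) :
    (localPowers K p v).index = p * (p * Ideal.absNorm v.asIdeal ^ klExp v p) := by
  rw [← Subgroup.relIndex_mul_index
      (le_sup_right : localPowers K p v ≤ localUnits K v ⊔ localPowers K p v),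
    Subgroup.relIndex_sup_right, kl_relIndex_units v hζ, ← kl_ker_ordMod, Subgroup.index_ker,
    MonoidHom.range_eq_top.2 (kl_ordMod_surjective v), Subgroup.card_top, mul_comm]
  congr 1
  exact Nat.card_zmod p

/-- Away from `p` a unit is a `p`-th power iff its reduction is. -/
theorem kl_mem_powers_iff_red (hζ : IsPrimitiveRoot ζ p) (hvp : (p : 𝓞 K) ∉ v.asIdeal)
    {u : Ovˣ} :
    ((klUnitsHom v u : localUnits K v) : Kvˣ) ∈ localPowers K p v ↔
      ∃ w, w ^ p = IsLocalRing.residue Ov u := by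
  constructor
  · intro h
    have h1 : klUnitsHom v u ∈ (localPowers K p v).subgroupOf (localUnits K v) := h
    rw [kl_powers_subgroupOf] at h1
    obtain ⟨_, ⟨y, rfl⟩, hy⟩ := h1
    obtain rfl := (klUnitsHom_bijective v).1 hy
    exact ⟨IsLocalRing.residue Ov y, by simp⟩
  · rintro ⟨w, hw⟩
    obtain ⟨π, z, c, hπ, hz, hc, he⟩ := kl_exists_root_data v hζ
    have := kl_isAdicComplete v
    have := kl_finite_residueField v
    have hc0 : c = 0 := by
      rw [kl_exp_eq_zero v hvp, Nat.mul_eq_zero] at he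
      have := hp.out.two_le
      omega
    obtain ⟨y, rfl⟩ := IsLocalRing.residue_surjective w
    rw [← map_pow] at hw
    have hyu : IsUnit y := by
      refine (isUnit_pow_iff hp.out.ne_zero).1 (isUnit_of_map_unit (IsLocalRing.residue Ov) _ ?_)
      rw [hw]
      exact u.isUnit.map _
    obtain ⟨y, rfl⟩ := hyu
    have h1 : π ^ 1 ∣ ((u * (y ^ p)⁻¹ : Ovˣ) : Ov) - 1 := by
      rw [← upi_mem_pow_iff hπ, pow_one, ← IsLocalRing.residue_eq_zero_iff, map_sub, map_one,
        Units.val_mul, map_mul, ← hw, ← map_mul, ← Units.val_pow_eq_pow_val,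
        Units.mul_inv, map_one, sub_self]
    obtain ⟨r, hr⟩ := upi_exists_root hπ hz hc (M := 1) (by simp [hc0]) h1
    refine ⟨((klUnitsHom v (r * y) : localUnits K v) : Kvˣ), ?_⟩
    rw [powMonoidHom_apply, ← SubgroupClass.coe_pow, ← map_pow, mul_pow, hr,
      inv_mul_cancel_right]

end Powers

end Fermat.Agent.CFT.Kummer
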